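import Fermat.Agent.S48.Cheb.Defs
import Fermat.Agent.Lib.FrobDensity.LogDensity

/-!
# S48 P5 seat (H), analysis: combining lower densities

`cs_combine`: if the weights `w i` (bounded, on the primes) have lower density `≥ c i` (limit
form) and `∑ i ∈ T, a i * w i p ≤ [p ∈ X]` pointwise (`a i ≥ 0`), then `X` has lower logarithmic
density `≥ ∑ i ∈ T, a i * c i` in the `Finset` form of `S48/Defs.lean`.
-/

set_option autoImplicit false

open Fermat.Agent.FrobDensity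

namespace Fermat.Agent.S48Cheb

/-- Uniform constants for finitely many lower bounds. -/
theorem cs_uniform {ι : Type*} (T : Finset ι) (w : ι → Nat.Primes → ℝ) (a c : ι → ℝ)
    (ha : ∀ i ∈ T, 0 ≤ a i) (ε : ℝ) (h : ∀ i ∈ T, LowerSharp (w i) (c i - ε)) :
    ∃ B δ : ℝ, 0 < δ ∧ δ ≤ 1 ∧ ∀ s : ℝ, 1 < s → s < 1 + δ →
      (∑ i ∈ T, a i * (c i - ε)) * Real.log (1 / (s - 1)) - B ≤
        ∑ i ∈ T, a i * ∑' p : Nat.Primes, w i p * ((p : ℕ) : ℝ) ^ (-s) := by
  classical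
  induction T using Finset.induction_on with
  | empty =>
    exact ⟨0, 1, one_pos, le_rfl, fun s _ _ => by simp⟩
  | insert i T hi ih =>
    obtain ⟨B₁, δ₁, hδ₁, hδ₁', h₁⟩ := ih (fun j hj => ha j (Finset.mem_insert_of_mem hj))
      (fun j hj => h j (Finset.mem_insert_of_mem hj))
    obtain ⟨B₂, δ₂, hδ₂, h₂⟩ := h i (Finset.mem_insert_self i T)
    have hai := ha i (Finset.mem_insert_self i T)
    refine ⟨B₁ + a i * B₂, min δ₁ δ₂, lt_min hδ₁ hδ₂, (min_le_left _ _).trans hδ₁', ?_⟩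
    intro s hs hsδ
    have e1 := h₁ s hs (lt_of_lt_of_le hsδ (by linarith [min_le_left δ₁ δ₂]))
    have e2 := h₂ s hs (lt_of_lt_of_le hsδ (by linarith [min_le_right δ₁ δ₂]))
    have e3 := mul_le_mul_of_nonneg_left e2 hai
    rw [Finset.sum_insert hi, Finset.sum_insert hi]
    nlinarith [e1, e3]

/-- A summable nonnegative series is, up to `1`, a finite sum. -/
theorem cs_exists_finset {f : Nat.Primes → ℝ} (hf : Summable f) :
    ∃ F : Finset Nat.Primes, ∑' p, f p - 1 ≤ ∑ p ∈ F, f p := by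
  have h := hf.hasSum
  have h1 : ∀ᶠ F : Finset Nat.Primes in Filter.atTop, ∑' p, f p - 1 < ∑ p ∈ F, f p :=
    h.eventually (lt_mem_nhds (by linarith))
  obtain ⟨F, hF⟩ := h1.exists
  exact ⟨F, hF.le⟩

theorem cs_combine {ι : Type*} (T : Finset ι) (w : ι → Nat.Primes → ℝ) (a c : ι → ℝ)
    (ha : ∀ i ∈ T, 0 ≤ a i) (hw0 : ∀ i ∈ T, ∀ p, 0 ≤ w i p) (hw2 : ∀ i ∈ T, ∀ p, w i p ≤ 2)
    (h : ∀ i ∈ T, LowerLim (w i) (c i)) (X : Set ℕ)
    (hX : ∀ p : Nat.Primes, (p : ℕ) ∉ X → ∑ i ∈ T, a i * w i p ≤ 0)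
    (hX1 : ∀ p : Nat.Primes, ∑ i ∈ T, a i * w i p ≤ 1) :
    Fermat.Agent.S48.LowerLogDensityGE X (∑ i ∈ T, a i * c i) := by
  classical
  intro ε hε
  set A : ℝ := ∑ i ∈ T, a i + 1 with hA
  have hApos : 0 < A := by
    have : 0 ≤ ∑ i ∈ T, a i := Finset.sum_nonneg ha
    linarith
  set ε' : ℝ := ε / A with hε'
  have hε'pos : 0 < ε' := div_pos hε hApos
  obtain ⟨B, δ, hδ, hδ1, hB⟩ := cs_uniform T w a c ha ε' (fun i hi => h i hi ε' hε'pos)
  refine ⟨B + 1, 1 + δ, by linarith, fun s hs hsδ => ?_⟩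
  have hlog : 0 ≤ Real.log (1 / (s - 1)) := by
    apply Real.log_nonneg
    rw [le_div_iff₀ (by linarith)]
    linarith
  have hsum : ∀ i ∈ T, Summable fun p : Nat.Primes => w i p * ((p : ℕ) : ℝ) ^ (-s) := by
    intro i hi
    refine summable_weight_mul_rpow ⟨2, fun p => ?_⟩ hs
    rw [abs_of_nonneg (hw0 i hi p)]
    exact hw2 i hi p
  -- the indicator of `X`
  set ind : Nat.Primes → ℝ := fun p => if (p : ℕ) ∈ X then 1 else 0 with hind
  have hindsum : Summable fun p : Nat.Primes => ind p * ((p : ℕ) : ℝ) ^ (-s) := by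
    refine summable_weight_mul_rpow ⟨1, fun p => ?_⟩ hs
    simp only [hind]
    split_ifs <;> simp
  have hpt : ∀ p : Nat.Primes, ∑ i ∈ T, a i * (w i p * ((p : ℕ) : ℝ) ^ (-s)) ≤
      ind p * ((p : ℕ) : ℝ) ^ (-s) := by
    intro p
    have hpow : 0 ≤ ((p : ℕ) : ℝ) ^ (-s) := Real.rpow_nonneg (Nat.cast_nonneg _) _
    have e : ∑ i ∈ T, a i * (w i p * ((p : ℕ) : ℝ) ^ (-s)) =
        (∑ i ∈ T, a i * w i p) * ((p : ℕ) : ℝ) ^ (-s) := by
      rw [Finset.sum_mul]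
      exact Finset.sum_congr rfl fun i _ => by ring
    rw [e]
    apply mul_le_mul_of_nonneg_right _ hpow
    simp only [hind]
    split_ifs with hpX
    · exact hX1 p
    · exact hX p hpX
  have hmain : ∑ i ∈ T, a i * ∑' p : Nat.Primes, w i p * ((p : ℕ) : ℝ) ^ (-s) ≤
      ∑' p : Nat.Primes, ind p * ((p : ℕ) : ℝ) ^ (-s) := by
    have e1 : ∑ i ∈ T, a i * ∑' p : Nat.Primes, w i p * ((p : ℕ) : ℝ) ^ (-s) =
        ∑ i ∈ T, ∑' p : Nat.Primes, a i * (w i p * ((p : ℕ) : ℝ) ^ (-s)) :=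
      Finset.sum_congr rfl fun i hi => ((hsum i hi).tsum_mul_left (a i)).symm
    rw [e1, ← Summable.tsum_finsetSum (fun i hi => (hsum i hi).mul_left (a i))]
    refine Summable.tsum_le_tsum hpt ?_ hindsum
    exact summable_sum fun i hi => (hsum i hi).mul_left (a i)
  obtain ⟨F, hF⟩ := cs_exists_finset hindsum
  -- the finite set
  refine ⟨(F.filter fun p : Nat.Primes => (p : ℕ) ∈ X).image (fun p : Nat.Primes => (p : ℕ)), ?_, ?_⟩
  · intro p hp
    rw [Finset.mem_image] at hp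
    obtain ⟨q, hq, rfl⟩ := hp
    exact ⟨q.2, (Finset.mem_filter.mp hq).2⟩
  · have e2 : ∑ p ∈ (F.filter fun p : Nat.Primes => (p : ℕ) ∈ X).image (fun p : Nat.Primes => (p : ℕ)),
        (p : ℝ) ^ (-s) = ∑ p ∈ F, ind p * ((p : ℕ) : ℝ) ^ (-s) := by
      have hinj : Set.InjOn (fun p : Nat.Primes => (p : ℕ))
          ((F.filter fun p : Nat.Primes => (p : ℕ) ∈ X) : Set Nat.Primes) :=
        fun p _ q _ hpq => Subtype.ext hpq
      have e7 := Finset.sum_image (s := F.filter fun p : Nat.Primes => (p : ℕ) ∈ X)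
        (g := fun p : Nat.Primes => (p : ℕ)) (f := fun n : ℕ => (n : ℝ) ^ (-s)) hinj
      rw [e7, Finset.sum_filter]
      refine Finset.sum_congr rfl fun p _ => ?_
      simp only [hind]
      split_ifs <;> simp
    rw [e2]
    have e3 := hB s hs hsδ
    have e4 : (∑ i ∈ T, a i * (c i - ε')) = ∑ i ∈ T, a i * c i - ε' * ∑ i ∈ T, a i := by
      rw [Finset.mul_sum, ← Finset.sum_sub_distrib]
      exact Finset.sum_congr rfl fun i _ => by ring
    have e5 : ε' * ∑ i ∈ T, a i ≤ ε := by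
      have h0 : 0 ≤ ∑ i ∈ T, a i := Finset.sum_nonneg ha
      rw [hε', div_mul_eq_mul_div, div_le_iff₀ hApos]
      have : ε * ∑ i ∈ T, a i ≤ ε * A := by
        apply mul_le_mul_of_nonneg_left _ hε.le
        rw [hA]; linarith
      exact this
    have e6 : (∑ i ∈ T, a i * c i - ε) * Real.log (1 / (s - 1)) ≤
        (∑ i ∈ T, a i * (c i - ε')) * Real.log (1 / (s - 1)) := by
      apply mul_le_mul_of_nonneg_right _ hlog
      rw [e4]; linarith
    linarith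

end Fermat.Agent.S48Cheb
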