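import Fermat.Agent.S48.Cheb.Defs
import Fermat.Agent.S56.TW.FrobConj.Ram
import Fermat.Agent.F4.Dict.PlaceSurj
import Fermat.Agent.Lib.FrobDensity.Bridge

/-!
# S48 P5 seat (H), Frobenius elements: from primes of `𝓞 L` to places of `ℚ̄`

`L ⊆ ℚ̄` finite Galois over `ℚ`.
* `cs_hit_lift`: if `g ∈ Gal(L/ℚ)` is a Frobenius at a prime of `𝓞 L` over `p` then `g` is the
  restriction of a Frobenius element of `Gal(ℚ̄/ℚ)` at a place over `p`.
* `cs_frob_conj`: outside a finite set `R` of primes, two Frobenius elements at places over `p`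
  have conjugate restrictions to `L`.
-/

set_option autoImplicit false

open NumberField
open scoped Pointwise

namespace Fermat.Agent.S48Cheb

local notation "Qb" => AlgebraicClosure ℚ
local notation "GQ" => (AlgebraicClosure ℚ ≃ₐ[ℚ] AlgebraicClosure ℚ)

theorem cs_hit_lift (L : IntermediateField ℚ Qb) [FiniteDimensional ℚ L] [IsGalois ℚ L]
    [NumberField L] (g : L ≃ₐ[ℚ] L) (p : ℕ) (hp : p.Prime) (h : Hit L g p) :
    ∃ (A : ValuationSubring Qb) (τ : GQ), A.LiesOverPrime p ∧ A.IsFrobeniusAt τ p ∧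
      AlgEquiv.restrictNormalHom L τ = g := by
  obtain ⟨P, hP, hpP, hfrob⟩ := h
  obtain ⟨A, τ, hA, -, hτ, hres⟩ :=
    Fermat.Agent.FrobBridge.exists_frobenius_of_prime L P p hp hpP g (by
      intro x
      refine ⟨g • x - x ^ p, hfrob x, ?_⟩
      have h1 : algebraMap (𝓞 L) L (g • x - x ^ p) =
          algebraMap (𝓞 L) L (g • x) - (algebraMap (𝓞 L) L x) ^ p := by
        rw [map_sub, map_pow]
      exact h1.symm)
  exact ⟨A, τ, hA, hτ, hres⟩

/-- Outside a finite set of primes, the Frobenius elements at the places over `p` have conjugate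
restrictions to `L`. -/
theorem cs_frob_conj (L : IntermediateField ℚ Qb) [FiniteDimensional ℚ L] :
    ∃ R : Finset ℕ, ∀ p : ℕ, p.Prime → p ∉ R →
      ∀ (A₀ A : ValuationSubring Qb) (τ₀ σ : GQ), A₀.LiesOverPrime p → A.LiesOverPrime p →
        A₀.IsFrobeniusAt τ₀ p → A.IsFrobeniusAt σ p →
        ∃ γ : GQ, (γ * τ₀ * γ⁻¹)⁻¹ * σ ∈ L.fixingSubgroup := by
  obtain ⟨R, hR⟩ := Fermat.Agent.S56.TW.fc_exists_finset_inertia_le L
  refine ⟨R, fun p hp hpR A₀ A τ₀ σ hA₀ hA hτ₀ hσ => ?_⟩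
  obtain ⟨γ, rfl⟩ := Fermat.Agent.F4.exists_smul_eq_of_liesOverPrime A₀ A hp hA₀ hA
  refine ⟨γ, ?_⟩
  have h1 := Fermat.Agent.S56.TW.fc_isFrobeniusAt_conj A₀ γ τ₀ p hτ₀
  exact hR p hp hpR (γ • A₀) hA (Fermat.Agent.S56.TW.fc_inv_mul_mem_inertia (γ • A₀) _ _ p h1 hσ)

end Fermat.Agent.S48Cheb
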