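import Mathlib

/-!
# S48 P5 seat (H), group theory

* `cs_sum_card_centralizer_le`: `∑_{g ∈ S} |C_G(g)| ≤ |G|` for a finite set `S` of conjugates of
  one element.
* `cs_card_preimage`: for a surjective homomorphism `ρ : G' → G` of finite groups,
  `|ρ⁻¹ C| / |G'| = |C| / |G|`.
-/

set_option autoImplicit false

namespace Fermat.Agent.S48Cheb

/-- `∑_{g ∈ S} |C_G(g)| ≤ |G|` if all the elements of `S` are conjugate to `g₀`. -/
theorem cs_sum_card_centralizer_le {G : Type*} [Group G] [Finite G] (g₀ : G) (S : Finset G)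
    (hS : ∀ g ∈ S, ∃ γ : G, g = γ * g₀ * γ⁻¹) :
    ∑ g ∈ S, Nat.card (Subgroup.centralizer ({g} : Set G)) ≤ Nat.card G := by
  classical
  have : Fintype G := Fintype.ofFinite G
  -- conjugators
  choose! γ hγ using hS
  let T := Σ g : S, (Subgroup.centralizer ({(g : G)} : Set G))
  let f : T → G := fun x => (x.2 : G) * γ x.1
  have hf : Function.Injective f := by
    rintro ⟨⟨g, hg⟩, ⟨h, hh⟩⟩ ⟨⟨g', hg'⟩, ⟨h', hh'⟩⟩ hxy
    simp only [f] at hxy
    have hcomm : h * g = g * h := by
      have := Subgroup.mem_centralizer_iff.mp hh g (Set.mem_singleton g)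
      exact this.symm
    have hcomm' : h' * g' = g' * h' := by
      have := Subgroup.mem_centralizer_iff.mp hh' g' (Set.mem_singleton g')
      exact this.symm
    have e1 : (h * γ g) * g₀ * (h * γ g)⁻¹ = g := by
      have := hγ g hg
      calc (h * γ g) * g₀ * (h * γ g)⁻¹ = h * (γ g * g₀ * (γ g)⁻¹) * h⁻¹ := by group
        _ = h * g * h⁻¹ := by rw [← this]
        _ = g := by rw [hcomm]; group
    have e2 : (h' * γ g') * g₀ * (h' * γ g')⁻¹ = g' := by
      have := hγ g' hg'
      calc (h' * γ g') * g₀ * (h' * γ g')⁻¹ = h' * (γ g' * g₀ * (γ g')⁻¹) * h'⁻¹ := by group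
        _ = h' * g' * h'⁻¹ := by rw [← this]
        _ = g' := by rw [hcomm']; group
    have hgg : g = g' := by rw [← e1, ← e2, hxy]
    subst hgg
    have hhh : h = h' := mul_right_cancel hxy
    subst hhh
    rfl
  have h1 : Nat.card T ≤ Nat.card G := Nat.card_le_card_of_injective f hf
  have h2 : Nat.card T = ∑ g ∈ S, Nat.card (Subgroup.centralizer ({g} : Set G)) := by
    rw [Nat.card_sigma]
    rw [← Finset.sum_coe_sort S (fun g => Nat.card (Subgroup.centralizer ({g} : Set G)))]
  rw [← h2]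
  exact h1

/-- Fibres of a surjective homomorphism of finite groups: `|ρ⁻¹ C| |G| = |C| |G'|`. -/
theorem cs_card_preimage_mul {G' G : Type*} [Group G'] [Group G] [Finite G'] [Finite G]
    (ρ : G' →* G) (hρ : Function.Surjective ρ) (C : Set G) :
    Nat.card (ρ ⁻¹' C) * Nat.card G = Nat.card C * Nat.card G' := by
  classical
  -- `ρ⁻¹ C ≃ C × ker ρ`
  let s : G → G' := Function.surjInv hρ
  have hs : ∀ c, ρ (s c) = c := Function.surjInv_eq hρ
  have key : ∀ D : Set G, Nat.card (ρ ⁻¹' D) = Nat.card D * Nat.card ρ.ker := by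
    intro D
    rw [← Nat.card_prod]
    refine Nat.card_congr
      { toFun := fun x => (⟨ρ x.1, x.2⟩, ⟨(s (ρ x.1))⁻¹ * x.1, by
          rw [MonoidHom.mem_ker, map_mul, map_inv, hs, inv_mul_cancel]⟩)
        invFun := fun y => ⟨s y.1.1 * y.2.1, by
          show ρ (s y.1.1 * y.2.1) ∈ D
          rw [map_mul, hs, MonoidHom.mem_ker.mp y.2.2, mul_one]
          exact y.1.2⟩
        left_inv := ?_
        right_inv := ?_ }
    · rintro ⟨x, hx⟩
      simp
    · rintro ⟨⟨c, hc⟩, ⟨k, hk⟩⟩
      have hk' : ρ k = 1 := MonoidHom.mem_ker.mp hk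
      simp [map_mul, hs, hk']
  have hG' : Nat.card G' = Nat.card G * Nat.card ρ.ker := by
    have := key Set.univ
    rw [Set.preimage_univ, Nat.card_congr (Equiv.Set.univ G'),
      Nat.card_congr (Equiv.Set.univ G)] at this
    exact this
  rw [key C, hG']
  ring

end Fermat.Agent.S48Cheb
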